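import Mathlib
import Fermat.Agent.LT.T2.H724.CommSpec

/-!
# Row LT, tower T2, sub-leaf T2.02d.1 `ConvKerC724` (FUBINI)   (helper323), OFF-MAIN

`convKerC323 : H724.ConvKerC724 K`, VERBATIM against
`Fermat/Agent/LT/T2/H724/CommSpec.lean` (helper724, sha256 78972da3):

    R(f₁) R(f₂) φ (x) = ∫ φ(x g) (f₁ ⋆ f₂)(g) dg,     (f₁ ⋆ f₂)(g) = ∫ f₁(h) f₂(h⁻¹ g) dh

for continuous compactly supported `f₁`, `f₂` and continuous `φ` (boundedness of `φ` is not
used: `φ` is bounded on the compact set `x · supp f₁ · supp f₂`).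

Proof.  Abstract form `conv_conv_eq323` on any locally compact, Hausdorff, second countable
topological group with a left invariant measure which is finite on compact sets:
left invariance (`k ↦ h⁻¹ g`) in the inner integral, then Fubini for the continuous compactly
supported function `(h, g) ↦ φ(x g) f₂(h⁻¹ g) f₁(h)` on `G × G`.
-/

set_option autoImplicit false
set_option linter.style.haveILetI false
set_option linter.unusedSectionVars false

open MeasureTheory

noncomputable section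

namespace Fermat.Agent.LT.T2.H323

/-! ## 1. The abstract statement -/

section Abstract

variable {G : Type*} [Group G] [TopologicalSpace G] [IsTopologicalGroup G]
  [LocallyCompactSpace G] [T2Space G] [SecondCountableTopology G]
  [MeasurableSpace G] [BorelSpace G]

/-- The function `(h, g) ↦ φ(x g) f₂(h⁻¹ g) f₁(h)` is continuous with compact support. -/
theorem hasCompactSupport_kernel323 (f₁ f₂ φ : G → ℂ) (h₁ : HasCompactSupport f₁)
    (h₂ : HasCompactSupport f₂) (x : G) :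
    HasCompactSupport (fun p : G × G => φ (x * p.2) * f₂ (p.1⁻¹ * p.2) * f₁ p.1) := by
  have hS : IsCompact ((tsupport f₁) ×ˢ ((fun p : G × G => p.1 * p.2) ''
      ((tsupport f₁) ×ˢ (tsupport f₂)))) :=
    h₁.isCompact.prod ((h₁.isCompact.prod h₂.isCompact).image (continuous_fst.mul continuous_snd))
  refine HasCompactSupport.intro hS ?_
  intro p hp
  by_contra hne
  apply hp
  have hf1 : f₁ p.1 ≠ 0 := fun h => hne (by rw [h, mul_zero])
  have hf2 : f₂ (p.1⁻¹ * p.2) ≠ 0 := fun h => hne (by rw [h, mul_zero, zero_mul])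
  have m1 : p.1 ∈ tsupport f₁ := subset_tsupport _ hf1
  have m2 : p.1⁻¹ * p.2 ∈ tsupport f₂ := subset_tsupport _ hf2
  refine ⟨m1, ⟨(p.1, p.1⁻¹ * p.2), ⟨m1, m2⟩, ?_⟩⟩
  show p.1 * (p.1⁻¹ * p.2) = p.2
  rw [mul_inv_cancel_left]

theorem continuous_kernel323 (f₁ f₂ φ : G → ℂ) (c₁ : Continuous f₁) (c₂ : Continuous f₂)
    (cφ : Continuous φ) (x : G) :
    Continuous (fun p : G × G => φ (x * p.2) * f₂ (p.1⁻¹ * p.2) * f₁ p.1) := by
  have e1 : Continuous (fun p : G × G => x * p.2) := continuous_const.mul continuous_snd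
  have e2 : Continuous (fun p : G × G => p.1⁻¹ * p.2) := continuous_fst.inv.mul continuous_snd
  exact ((cφ.comp e1).mul (c₂.comp e2)).mul (c₁.comp continuous_fst)

/-- **Fubini for convolutions**, abstract form. -/
theorem conv_conv_eq323 (μ : Measure G) [μ.IsMulLeftInvariant] [IsFiniteMeasureOnCompacts μ]
    [SFinite μ] (f₁ f₂ φ : G → ℂ) (c₁ : Continuous f₁) (h₁ : HasCompactSupport f₁)
    (c₂ : Continuous f₂) (h₂ : HasCompactSupport f₂) (cφ : Continuous φ) (x : G) :
    ∫ h, (∫ k, φ (x * h * k) * f₂ k ∂μ) * f₁ h ∂μ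
      = ∫ g, φ (x * g) * (∫ h, f₁ h * f₂ (h⁻¹ * g) ∂μ) ∂μ := by
  -- Step 1: left invariance in the inner integral
  have step1 : ∀ h : G, ∫ k, φ (x * h * k) * f₂ k ∂μ = ∫ g, φ (x * g) * f₂ (h⁻¹ * g) ∂μ := by
    intro h
    have := integral_mul_left_eq_self (μ := μ) (fun g => φ (x * g) * f₂ (h⁻¹ * g)) h
    rw [← this]
    refine integral_congr_ae (Filter.Eventually.of_forall fun k => ?_)
    show φ (x * h * k) * f₂ k = φ (x * (h * k)) * f₂ (h⁻¹ * (h * k))
    rw [inv_mul_cancel_left, mul_assoc]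
  -- Step 2: put `f₁ h` inside
  have step2 : ∀ h : G, (∫ g, φ (x * g) * f₂ (h⁻¹ * g) ∂μ) * f₁ h
      = ∫ g, φ (x * g) * f₂ (h⁻¹ * g) * f₁ h ∂μ := by
    intro h
    rw [integral_mul_const]
  -- Step 3: Fubini
  have hint : Integrable (Function.uncurry fun (h g : G) => φ (x * g) * f₂ (h⁻¹ * g) * f₁ h)
      (μ.prod μ) := by
    have hc := continuous_kernel323 f₁ f₂ φ c₁ c₂ cφ x
    have hs := hasCompactSupport_kernel323 f₁ f₂ φ h₁ h₂ x
    exact hc.integrable_of_hasCompactSupport hs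
  have step3 := integral_integral_swap hint
  -- Step 4: pull `φ (x g)` out
  have step4 : ∀ g : G, ∫ h, φ (x * g) * f₂ (h⁻¹ * g) * f₁ h ∂μ
      = φ (x * g) * ∫ h, f₁ h * f₂ (h⁻¹ * g) ∂μ := by
    intro g
    rw [← integral_const_mul]
    refine integral_congr_ae (Filter.Eventually.of_forall fun h => ?_)
    show φ (x * g) * f₂ (h⁻¹ * g) * f₁ h = φ (x * g) * (f₁ h * f₂ (h⁻¹ * g))
    ring
  calc ∫ h, (∫ k, φ (x * h * k) * f₂ k ∂μ) * f₁ h ∂μ
      = ∫ h, ∫ g, φ (x * g) * f₂ (h⁻¹ * g) * f₁ h ∂μ ∂μ := by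
        refine integral_congr_ae (Filter.Eventually.of_forall fun h => ?_)
        show (∫ k, φ (x * h * k) * f₂ k ∂μ) * f₁ h = ∫ g, φ (x * g) * f₂ (h⁻¹ * g) * f₁ h ∂μ
        rw [step1 h, step2 h]
    _ = ∫ g, ∫ h, φ (x * g) * f₂ (h⁻¹ * g) * f₁ h ∂μ ∂μ := step3
    _ = ∫ g, φ (x * g) * (∫ h, f₁ h * f₂ (h⁻¹ * g) ∂μ) ∂μ := by
        refine integral_congr_ae (Filter.Eventually.of_forall fun g => ?_)
        exact step4 g

end Abstract

/-! ## 2. The leaf -/

open IsDedekindDomain NumberField AutomorphicForm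
open Fermat.Agent.LT.H556.A0
open Fermat.Agent.LT.T2 Fermat.Agent.LT.T2.H724

attribute [local instance] Fermat.Agent.LT.T2.borelG

variable (K : Type) [Field K] [NumberField K]

/-- **Sub-leaf T2.02d.1 (FUBINI)**, unconditional. -/
theorem convKerC323 : ConvKerC724 K := by
  intro hLC F f₁ f₂ φ c₁ h₁ c₂ h₂ cφ _ x
  obtain ⟨_, hlc, ht2, hsc⟩ := hLC
  haveI : LocallyCompactSpace (G K) := hlc
  haveI : T2Space (G K) := ht2
  haveI : SecondCountableTopology (G K) := hsc
  haveI : BorelSpace (G K) := ⟨rfl⟩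
  haveI : F.μ.IsHaarMeasure := F.haar
  exact conv_conv_eq323 F.μ f₁ f₂ φ c₁ h₁ c₂ h₂ cφ x

end Fermat.Agent.LT.T2.H323

end
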